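import Fermat.Agent.S18.H754.KummerTransfer

/-!
# S18 / Route K / étale Kummer cover: the GLOBAL lifting theorem `KummerLiftStatement`
-/

set_option autoImplicit false

noncomputable section

namespace Fermat.Agent.S18.H754

open Polynomial IsLocalRing

section Global

variable {B : Type*} [CommRing B] [IsDomain B]
  {F : Type*} [Field F] [Algebra B F] [IsFractionRing B F]
  {F' : Type*} [Field F'] [Algebra F F'] [Algebra B F'] [IsScalarTower B F F']

omit [IsDomain B] [IsFractionRing B F] in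
/-- `z ∈ O'` as `u` is a unit at `ϖ`. -/
lemma z_mem_Oloc {ϖ : B} (hϖ : Prime ϖ) {p : ℕ} (hp : 0 < p) {u : F} {z : F'}
    (hz : z ^ p = algebraMap F F' u) (h1 : OneModPi ϖ u) : z ∈ Oloc (F' := F') ϖ hϖ := by
  obtain ⟨a, s, hs, -, hu⟩ := h1
  refine ⟨s, hs, IsIntegral.of_pow hp ?_⟩
  have hu' : algebraMap F F' u * algebraMap B F' s = algebraMap B F' a := by
    have := congrArg (algebraMap F F') hu
    simpa only [map_mul, ← IsScalarTower.algebraMap_apply] using this
  have e : (algebraMap B F' s * z) ^ p = algebraMap B F' (s ^ (p - 1) * a) := by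
    rw [mul_pow, hz, map_mul, map_pow, ← hu']
    obtain ⟨k, rfl⟩ : ∃ k, p = k + 1 := ⟨p - 1, (Nat.sub_add_cancel hp).symm⟩
    rw [Nat.add_sub_cancel, pow_succ]
    ring
  rw [e]
  exact isIntegral_algebraMap

omit [IsDomain B] [IsFractionRing B F] in
lemma natCast_inv_eq {p : ℕ} (hpu : IsUnit (p : B)) :
    ((p : F'))⁻¹ = algebraMap B F' ((hpu.unit⁻¹ : Bˣ) : B) := by
  have h4 : algebraMap B F' ((hpu.unit⁻¹ : Bˣ) : B) * (p : F') = 1 := by
    rw [← map_natCast (algebraMap B F') p, ← map_mul]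
    rw [IsUnit.val_inv_mul hpu, map_one]
  exact (eq_inv_of_mul_eq_one_left h4).symm

omit [IsDomain B] [IsFractionRing B F] in
lemma kummerIdem_mem_Oloc {ϖ : B} (hϖ : Prime ϖ) {p : ℕ} (hp : 0 < p) (hpu : IsUnit (p : B))
    {u : F} {z : F'} (hz : z ^ p = algebraMap F F' u) (h1 : OneModPi ϖ u) (η : B) :
    kummerIdem p η z ∈ Oloc (F' := F') ϖ hϖ := by
  rw [kummerIdem, natCast_inv_eq (F' := F') hpu]
  refine mul_mem (algebraMap_mem_Oloc hϖ _) (sum_mem fun a _ => ?_)
  exact mul_mem (algebraMap_mem_Oloc hϖ _) (pow_mem (z_mem_Oloc hϖ hp hz h1) a)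

/-- The ideal of denominators of lifts of `e` modulo `ϖ O'`. -/
def liftIdeal [FaithfulSMul B F'] (ϖ : B) (hϖ : Prime ϖ) (e : F') : Ideal B where
  carrier := {r | ∃ b : F', IsIntegral B b ∧ InPiO ϖ (b - algebraMap B F' r * e)}
  add_mem' := by
    rintro r r' ⟨b, hb, h⟩ ⟨b', hb', h'⟩
    refine ⟨b + b', hb.add hb', ?_⟩
    have e1 : b + b' - algebraMap B F' (r + r') * e =
        (b - algebraMap B F' r * e) + (b' - algebraMap B F' r' * e) := by
      rw [map_add]; ring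
    rw [e1]
    exact h.add hϖ h'
  zero_mem' := by
    refine ⟨0, isIntegral_zero, ?_⟩
    rw [map_zero, zero_mul, sub_zero]
    exact InPiO.zero hϖ
  smul_mem' := by
    rintro c r ⟨b, hb, h⟩
    refine ⟨algebraMap B F' c * b, isIntegral_algebraMap.mul hb, ?_⟩
    have e1 : algebraMap B F' c * b - algebraMap B F' (c • r) * e =
        algebraMap B F' c * (b - algebraMap B F' r * e) := by
      rw [smul_eq_mul, map_mul]; ring
    rw [e1]
    exact h.mul_left hϖ (algebraMap_mem_Oloc hϖ c)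

omit [IsDomain B] in
lemma kummerIdem_loc (R : Type*) [CommRing R] [Algebra B R] [Algebra R F']
    [IsScalarTower B R F'] (p : ℕ) (η : B) (z : F') :
    kummerIdem p (algebraMap B R η) z = kummerIdem p η z := by
  rw [kummerIdem, kummerIdem]
  congr 1
  refine Finset.sum_congr rfl fun a _ => ?_
  rw [← map_pow, ← IsScalarTower.algebraMap_apply]

/-- **Global lifting theorem** for the Kummer idempotents. -/
theorem kummer_lift_global [IsNoetherianRing B]
    (ϖ : B) (hϖ : Prime ϖ) (hreg : RegularAlong ϖ)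
    (p : ℕ) (hp : 0 < p) (hpu : IsUnit (p : B))
    (u : F) (z : F') (hz : z ^ p = algebraMap F F' u)
    (h1 : OneModPi ϖ u) (hdiv : DivisibleDivisor B p u) (η : B) :
    ∃ b : F', IsIntegral B b ∧ InPiO ϖ (b - kummerIdem p η z) := by
  classical
  haveI : FaithfulSMul B F' := faithfulSMul_of_tower B F F'
  set e := kummerIdem p η z with he
  have heO : e ∈ Oloc (F' := F') ϖ hϖ := kummerIdem_mem_Oloc hϖ hp hpu hz h1 η
  have hϖJ : ϖ ∈ liftIdeal (F' := F') ϖ hϖ e := by
    refine ⟨0, isIntegral_zero, ?_⟩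
    rw [zero_sub]
    refine InPiO.neg hϖ ?_
    rw [inPiO_iff hϖ]
    exact ⟨e, heO, rfl⟩
  have hJ : liftIdeal (F' := F') ϖ hϖ e = ⊤ := by
    by_contra hne
    obtain ⟨𝔪, h𝔪, hle⟩ := Ideal.exists_le_maximal _ hne
    have hϖ𝔪 : ϖ ∈ 𝔪 := hle hϖJ
    obtain ⟨t, ht, hreg'⟩ := hreg 𝔪 h𝔪 hϖ𝔪
    haveI : 𝔪.IsPrime := h𝔪.isPrime
    let R : Subalgebra B F :=
      Localization.subalgebra.ofField F 𝔪.primeCompl 𝔪.primeCompl_le_nonZeroDivisors
    haveI : IsLocalization.AtPrime R 𝔪 :=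
      (inferInstance : IsLocalization 𝔪.primeCompl R)
    haveI : IsLocalRing R := IsLocalization.AtPrime.isLocalRing R 𝔪
    haveI : IsNoetherianRing R := IsLocalization.isNoetherianRing 𝔪.primeCompl R inferInstance
    have hpu' : IsUnit ((p : ℕ) : R) := by
      have := hpu.map (algebraMap B R)
      rwa [map_natCast] at this
    obtain ⟨b, hb, hbe⟩ := kummer_lift_local (R := R) (F := F) (F' := F')
      (algebraMap B R ϖ) (algebraMap B R t) (prime_algebraMap_loc 𝔪 R hϖ hϖ𝔪)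
      (maximalIdeal_loc_eq_span_pair 𝔪 R hϖ𝔪 ht hreg') p hp hpu' u z hz
      (oneModPi_loc 𝔪 R hϖ hϖ𝔪 h1) (locallyPow_of_divisibleDivisor 𝔪 R hdiv)
      (algebraMap B R η)
    rw [kummerIdem_loc R p η z] at hbe
    have hbe' : InPiO ϖ (b - e) := inPiO_of_loc 𝔪 R hϖ hϖ𝔪 hbe
    obtain ⟨m, hm, hmb⟩ := exists_notMem_isIntegral_mul 𝔪 R hb
    apply hm
    apply hle
    refine ⟨algebraMap B F' m * b, hmb, ?_⟩
    rw [← mul_sub]
    exact hbe'.mul_left hϖ (algebraMap_mem_Oloc hϖ m)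
  have h1J : (1 : B) ∈ liftIdeal (F' := F') ϖ hϖ e := by
    rw [hJ]
    exact Submodule.mem_top
  obtain ⟨b, hb, hbe⟩ := h1J
  refine ⟨b, hb, ?_⟩
  rwa [map_one, one_mul] at hbe

end Global

/-- The frozen statement `KummerLiftStatement` of `KummerSpec.lean` holds. -/
theorem kummerLiftStatement : KummerLiftStatement := by
  intro B _ _ _ _ F _ _ _ F' _ _ _ _ ϖ hϖ hreg p hp hpu u z hz _ h1 hdiv η _
  exact kummer_lift_global ϖ hϖ hreg p hp.pos hpu u z hz h1 hdiv η

end Fermat.Agent.S18.H754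

end
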